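/-
S40x (research mode, helper64): formal lemmas around `Consumer.Ord.OrdPts` for the S40 dichotomy.

* `ordPts_unique` : the subgroup `X1` of `OrdPts` ((i) `(τ - 1) X ≤ X1` for `τ ∈ Iner`, (ii) `NoTriv X1`)
  is unique; `ordPts_eq_inertiaSpan`; `comap_ordPts` : for an equivariant injective `f : V →+ X`, the
  `OrdPts` subgroup of `V` is the preimage of the one of `X` (so `V ∩ K` is the kernel of reduction of
  `V = W[p]`).
* `det_eq_of_line` : on a plane `V`, a map `f` with `(f - 1) V ≤ L`, `L` a line on which `f = χ`, has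
  determinant `χ`.
* `dichotomy` : `V` a plane, `(τ - 1) V ≤ L` and `det (π τ) = eps τ` for `τ ∈ Iner`, `eps ≠ 1` on `Iner`
  ==> `L = ⊤` (shape (a)) or `L` is a line on which `Iner` acts by `eps` (and trivially on `V / L`:
  the ordinary shape (b)).
* `not_isotypic` : on a plane with `det = eps`, `eps τ₀ ≠ 0, 1`, `Iner` cannot act by the scalar `eps`
  (contradiction in shape (a) once (C4'') gives `τ = eps τ` on `V ≤ K ∩ X^new`).
-/
import Mathlib
import Fermat.Agent.S33x.Consumer.OrdPts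

set_option autoImplicit false

namespace Fermat.Agent.S40x.Dichotomy

open Fermat.Agent.S33x.Consumer.Ord

section Unique

variable {G : Type*} {X : Type*} [AddCommGroup X] {Iner : Set G} {act : G → X → X}

theorem ordPts_le {X1 X2 : AddSubgroup X}
    (h1 : ∀ τ ∈ Iner, ∀ x : X, act τ x - x ∈ X1) (n1 : NoTriv Iner act X1)
    (h2 : ∀ τ ∈ Iner, ∀ x : X, act τ x - x ∈ X2) : X1 ≤ X2 := by
  have h := n1 (X1 ⊓ X2) X1 inf_le_left le_rfl (fun τ hτ b _ => ⟨h1 τ hτ b, h2 τ hτ b⟩)
  exact h.trans inf_le_right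

/-- **Uniqueness of the `OrdPts` subgroup.** -/
theorem ordPts_unique {X1 X2 : AddSubgroup X}
    (h1 : ∀ τ ∈ Iner, ∀ x : X, act τ x - x ∈ X1) (n1 : NoTriv Iner act X1)
    (h2 : ∀ τ ∈ Iner, ∀ x : X, act τ x - x ∈ X2) (n2 : NoTriv Iner act X2) : X1 = X2 :=
  le_antisymm (ordPts_le h1 n1 h2) (ordPts_le h2 n2 h1)

theorem ordPts_eq_inertiaSpan {X1 : AddSubgroup X}
    (h1 : ∀ τ ∈ Iner, ∀ x : X, act τ x - x ∈ X1) (n1 : NoTriv Iner act X1) :
    X1 = inertiaSpan Iner act :=
  ordPts_unique h1 n1 (fun _ hτ x => sub_mem_inertiaSpan hτ x) (n1.mono (inertiaSpan_le h1))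

variable {V : Type*} [AddCommGroup V] {actV : G → V → V}

/-- `NoTriv` pulls back along equivariant injective maps. -/
theorem noTriv_comap (f : V →+ X) (hf : Function.Injective f)
    (heq : ∀ σ v, f (actV σ v) = act σ (f v)) {X1 : AddSubgroup X} (n1 : NoTriv Iner act X1) :
    NoTriv Iner actV (X1.comap f) := by
  intro A B hAB hB htriv b hb
  have h := n1 (A.map f) (B.map f) (AddSubgroup.map_mono hAB) ?_ ?_
  · obtain ⟨a, ha, hab⟩ := h ⟨b, hb, rfl⟩
    rwa [← hf hab]
  · rintro _ ⟨b', hb', rfl⟩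
    exact hB hb'
  · rintro τ hτ _ ⟨b', hb', rfl⟩
    refine ⟨actV τ b' - b', htriv τ hτ b' hb', ?_⟩
    rw [map_sub, heq]

/-- for an equivariant injective `f : V →+ X`, the `OrdPts` subgroup of `V` is the preimage of the
`OrdPts` subgroup of `X`. -/
theorem comap_ordPts (f : V →+ X) (hf : Function.Injective f)
    (heq : ∀ σ v, f (actV σ v) = act σ (f v)) {K : AddSubgroup V}
    (hK1 : ∀ τ ∈ Iner, ∀ v : V, actV τ v - v ∈ K) (hK2 : NoTriv Iner actV K)
    {X1 : AddSubgroup X} (h1 : ∀ τ ∈ Iner, ∀ x : X, act τ x - x ∈ X1)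
    (n1 : NoTriv Iner act X1) : K = X1.comap f := by
  refine ordPts_unique hK1 hK2 ?_ (noTriv_comap f hf heq n1)
  intro τ hτ v
  show f (actV τ v - v) ∈ X1
  rw [map_sub, heq]
  exact h1 τ hτ (f v)

end Unique

section Plane

variable {k : Type*} [Field k] {V : Type*} [AddCommGroup V] [Module k V]

/-- on a plane, `f` with `(f - 1) V ≤ L`, `L` a line on which `f` is the scalar `χ`, has `det f = χ`. -/
theorem det_eq_of_line (hV : Module.finrank k V = 2) (f : V →ₗ[k] V) (L : Submodule k V)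
    (hL : Module.finrank k L = 1) (hf : ∀ v, f v - v ∈ L) (χ : k) (hχ : ∀ v ∈ L, f v = χ • v) :
    LinearMap.det f = χ := by
  have : Module.Finite k V := Module.finite_of_finrank_pos (by rw [hV]; norm_num)
  obtain ⟨⟨e1, he1L⟩, he1ne, hspan⟩ := finrank_eq_one_iff'.mp hL
  have he1 : e1 ≠ 0 := fun h => he1ne (Subtype.ext h)
  have hspan' : ∀ w ∈ L, ∃ c : k, c • e1 = w := by
    intro w hw
    obtain ⟨c, hc⟩ := hspan ⟨w, hw⟩
    exact ⟨c, congrArg Subtype.val hc⟩
  have hLtop : L ≠ ⊤ := by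
    intro h
    rw [h, finrank_top, hV] at hL
    norm_num at hL
  obtain ⟨e2, he2⟩ : ∃ e2 : V, e2 ∉ L := by
    by_contra hcon
    push Not at hcon
    exact hLtop (eq_top_iff.mpr fun v _ => hcon v)
  have hli : LinearIndependent k ![e1, e2] := by
    rw [LinearIndependent.pair_iff]
    intro s t hst
    have ht : t = 0 := by
      by_contra ht
      apply he2
      have : e2 = (-(t⁻¹ * s)) • e1 := by
        have h2 : t • e2 = -(s • e1) := by
          rw [eq_neg_iff_add_eq_zero, add_comm]; exact hst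
        calc e2 = t⁻¹ • (t • e2) := by rw [smul_smul, inv_mul_cancel₀ ht, one_smul]
          _ = (-(t⁻¹ * s)) • e1 := by rw [h2, smul_neg, smul_smul, neg_smul]
      rw [this]
      exact L.smul_mem _ he1L
    rw [ht, zero_smul, add_zero] at hst
    exact ⟨(smul_eq_zero.mp hst).resolve_right he1, ht⟩
  let b : Module.Basis (Fin 2) k V :=
    basisOfLinearIndependentOfCardEqFinrank hli (by rw [hV, Fintype.card_fin])
  have hb0 : b 0 = e1 := by
    simp [b, coe_basisOfLinearIndependentOfCardEqFinrank]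
  have hb1 : b 1 = e2 := by
    simp [b, coe_basisOfLinearIndependentOfCardEqFinrank]
  obtain ⟨c, hc⟩ := hspan' _ (hf e2)
  have hf1 : f (b 0) = χ • b 0 := by rw [hb0]; exact hχ e1 he1L
  have hf2 : f (b 1) = b 1 + c • b 0 := by
    rw [hb0, hb1, hc]; abel
  rw [← LinearMap.det_toMatrix b, Matrix.det_fin_two]
  simp only [LinearMap.toMatrix_apply, hf1, hf2, map_add, map_smul, Module.Basis.repr_self,
    Finsupp.add_apply, Finsupp.smul_apply, Finsupp.single_apply, smul_eq_mul]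
  simp

/-- **The dichotomy.**  `V` a plane, `(τ - 1) V ≤ L` and `det (π τ) = eps τ` for `τ ∈ Iner`,
`eps τ₀ ≠ 1` for some `τ₀ ∈ Iner`.  Then `L = ⊤`, or `L` is a line on which `Iner` acts through `eps`. -/
theorem dichotomy (hV : Module.finrank k V = 2) {G : Type*} (Iner : Set G) (π : G → V →ₗ[k] V)
    (eps : G → k) (L : Submodule k V) (hi : ∀ τ ∈ Iner, ∀ v, π τ v - v ∈ L)
    (hdet : ∀ τ ∈ Iner, LinearMap.det (π τ) = eps τ) (hne : ∃ τ ∈ Iner, eps τ ≠ 1) :
    L = ⊤ ∨ (Module.finrank k L = 1 ∧ ∀ τ ∈ Iner, ∀ v ∈ L, π τ v = eps τ • v) := by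
  have : Module.Finite k V := Module.finite_of_finrank_pos (by rw [hV]; norm_num)
  by_cases hLtop : L = ⊤
  · exact Or.inl hLtop
  right
  have hLbot : L ≠ ⊥ := by
    intro hbot
    obtain ⟨τ, hτ, hτ1⟩ := hne
    apply hτ1
    have hid : π τ = LinearMap.id := by
      ext v
      have h := hi τ hτ v
      rw [hbot, Submodule.mem_bot, sub_eq_zero] at h
      simpa using h
    rw [← hdet τ hτ, hid, LinearMap.det_id]
  have hL1 : Module.finrank k L = 1 := by
    have h1 : Module.finrank k L < 2 := hV ▸ Submodule.finrank_lt hLtop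
    have h2 : Module.finrank k L ≠ 0 := fun h => hLbot (Submodule.finrank_eq_zero.mp h)
    omega
  refine ⟨hL1, ?_⟩
  intro τ hτ
  obtain ⟨⟨e1, he1L⟩, he1ne, hspan⟩ := finrank_eq_one_iff'.mp hL1
  have hstab : π τ e1 ∈ L := by
    have h := L.add_mem (hi τ hτ e1) he1L
    simpa using h
  obtain ⟨χ, hχ⟩ := hspan ⟨π τ e1, hstab⟩
  have hχ' : χ • e1 = π τ e1 := congrArg Subtype.val hχ
  have hall : ∀ v ∈ L, π τ v = χ • v := by
    intro v hv
    obtain ⟨c, hc⟩ := hspan ⟨v, hv⟩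
    have hc' : c • e1 = v := congrArg Subtype.val hc
    rw [← hc', map_smul, ← hχ', smul_comm]
  have hdet' := det_eq_of_line hV (π τ) L hL1 (hi τ hτ) χ hall
  rw [hdet τ hτ] at hdet'
  rw [hdet']
  exact hall

/-- on a plane with `det = eps` and `eps τ₀ ≠ 0, 1`, `Iner` does not act through the scalar `eps`. -/
theorem not_isotypic (hV : Module.finrank k V = 2) {G : Type*} (Iner : Set G) (π : G → V →ₗ[k] V)
    (eps : G → k) (hdet : ∀ τ ∈ Iner, LinearMap.det (π τ) = eps τ)
    (hne : ∃ τ ∈ Iner, eps τ ≠ 1 ∧ eps τ ≠ 0) :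
    ¬ ∀ τ ∈ Iner, ∀ v, π τ v = eps τ • v := by
  intro h
  obtain ⟨τ, hτ, h1, h0⟩ := hne
  have hsm : π τ = eps τ • LinearMap.id := by
    ext v
    simpa using h τ hτ v
  have hd := hdet τ hτ
  rw [hsm, LinearMap.det_smul, hV, LinearMap.det_id, mul_one] at hd
  apply h1
  have h2 : eps τ * (eps τ - 1) = 0 := by
    rw [mul_sub, mul_one, ← sq, hd, sub_self]
  rcases mul_eq_zero.mp h2 with h3 | h3
  · exact absurd h3 h0
  · exact sub_eq_zero.mp h3

end Plane

end Fermat.Agent.S40x.Dichotomy
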